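import Fermat.Agent.GS.Inst.Wint.Logic
import Fermat.Agent.GR.D.HorizDescent

/-!
# GS-INST / Wint, file Descent: from `Q̄` to `L`

`V ⊇ L` a valuation subring of `FF L N`.  With the algebra structure `mapFF (algebraMap L Qb) N` on
`FF Qb N`, `GR.D.exists_valuationSubring_extending` gives `V'` with `x ∈ V ↔ mapFF x ∈ V'`; `V' ⊇ Q̄` since `Q̄`
is integral over `L` (copy from the proof of `GR.D.exists_place_extending`).  `mapFF` commutes with `w`
(`mapFF_comm`) and maps `baseFn L H` to `baseFn Qb H`.  So `claimB`, `claimZ` descend to `V`; conclude with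
`isIntegral_of_forall_valuationSubring`.
-/

set_option autoImplicit false
set_option synthInstance.maxHeartbeats 400000

noncomputable section

namespace Fermat.Agent.GS.Inst

open Fermat.Agent.GR Fermat.Agent.GR.E ModularCurve IntermediateField

variable {L : Type} [Field L] [CharZero L] [Algebra L Qb] [Algebra.IsAlgebraic L Qb]
variable {q N1 : ℕ} [NeZero q] [NeZero N1] [NeZero (q * N1)]

/-- an embedding of `ℚ̄` in `ℂ`. -/
def Descent_iota : Qb →+* ℂ :=
  haveI : Algebra.IsAlgebraic ℚ Qb := AlgebraicClosure.isAlgebraic ℚ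
  (IsAlgClosed.lift (R := ℚ) (S := Qb) (M := ℂ)).toRingHom

omit [CharZero L] [Algebra.IsAlgebraic L Qb] in
theorem Descent_coeffMap_baseFn (H : LaurentSeries ℤ) :
    coeffMap (algebraMap L Qb) (baseFn L H) = baseFn Qb H := by
  ext n
  simp [baseFn]

omit [CharZero L] [Algebra.IsAlgebraic L Qb] in
theorem Descent_mapFF_baseFn (N : ℕ) (H : LaurentSeries ℤ)
    (h1 : baseFn L H ∈ FF L N) (h2 : baseFn Qb H ∈ FF Qb N) :
    mapFF (algebraMap L Qb) N ⟨baseFn L H, h1⟩ = ⟨baseFn Qb H, h2⟩ :=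
  Subtype.ext (by rw [coe_mapFF]; exact Descent_coeffMap_baseFn H)

theorem exists_extension (N : ℕ) (V : ValuationSubring (FF L N))
    (hV : ∀ a : L, algebraMap L (FF L N) a ∈ V) :
    ∃ V' : ValuationSubring (FF Qb N), (∀ a : Qb, algebraMap Qb (FF Qb N) a ∈ V') ∧
      ∀ x : FF L N, x ∈ V ↔ mapFF (algebraMap L Qb) N x ∈ V' := by
  let _ : Algebra (FF L N) (FF Qb N) := (mapFF (algebraMap L Qb) N).toAlgebra
  obtain ⟨V', hV'⟩ := GR.D.exists_valuationSubring_extending (F' := FF Qb N) V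
  refine ⟨V', ?_, hV'⟩
  intro a
  obtain ⟨p, hp, hp0⟩ : IsIntegral L a := Algebra.IsIntegral.isIntegral a
  have hφ : ∀ c : L, ((algebraMap Qb (FF Qb N)).comp (algebraMap L Qb)) c ∈ V'.toSubring := by
    intro c
    have h1 := (hV' _).1 (hV c)
    have h2 : algebraMap (FF L N) (FF Qb N) (algebraMap L (FF L N) c) =
        algebraMap Qb (FF Qb N) (algebraMap L Qb c) := by
      apply Subtype.ext
      change coeffMap (algebraMap L Qb) (algebraMap L (LaurentSeries L) c) =
        algebraMap Qb (LaurentSeries Qb) (algebraMap L Qb c)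
      rw [C.coeffMap_algebraMap']
    rw [h2] at h1
    exact h1
  let φ : L →+* V' := ((algebraMap Qb (FF Qb N)).comp (algebraMap L Qb)).codRestrict V'.toSubring hφ
  have h2 : IsIntegral V' (algebraMap Qb (FF Qb N) a) := by
    refine ⟨p.map φ, hp.map _, ?_⟩
    rw [Polynomial.eval₂_map]
    have h3 : (algebraMap V' (FF Qb N)).comp φ =
        (algebraMap Qb (FF Qb N)).comp (algebraMap L Qb) := rfl
    rw [h3, ← Polynomial.hom_eval₂, hp0, map_zero]
  obtain ⟨y, hy⟩ := IsIntegrallyClosed.isIntegral_iff.1 h2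
  rw [← hy]
  exact y.2

/-- (WINT) -/
theorem isIntegral_w {r : ℕ} [NeZero r] {H : LaurentSeries ℤ} (hH : IsHaupt r H) (hq : q.Prime)
    (hqN : ¬ q ∣ N1) (hrN : r ∣ N1) {w : FF L (q * N1) ≃ₐ[L] FF L (q * N1)}
    (hw : IsWQ L q N1 w) (hm : baseFn L H ∈ FF L (q * N1)) :
    IsIntegral (Algebra.adjoin L ({(⟨baseFn L H, hm⟩ : FF L (q * N1))} : Set (FF L (q * N1))))
      (w ⟨baseFn L H, hm⟩) := by
  apply isIntegral_of_forall_valuationSubring (K := L)
  intro V hV ht
  obtain ⟨V', hK, hV'⟩ := exists_extension (q * N1) V hV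
  have hm' : baseFn Qb H ∈ FF Qb (q * N1) := by
    have := (mapFF (algebraMap L Qb) (q * N1) ⟨baseFn L H, hm⟩).2
    rwa [coe_mapFF, Descent_coeffMap_baseFn] at this
  have hmap := Descent_mapFF_baseFn (L := L) (q * N1) H hm hm'
  rw [hV', mapFF_comm Descent_iota (algebraMap L Qb) hq hqN hw, hmap]
  rw [hV', hmap] at ht
  exact claimB hH.toIsGen hq hqN hrN hm' V' hK ht

/-- (WINT) for the chart at infinity -/
theorem isIntegral_w_inv {r : ℕ} [NeZero r] {H : LaurentSeries ℤ} (hH : IsHaupt r H)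
    (hq : q.Prime) (hqN : ¬ q ∣ N1) (hrN : r ∣ N1) {w : FF L (q * N1) ≃ₐ[L] FF L (q * N1)}
    (hw : IsWQ L q N1 w) (hm : baseFn L H ∈ FF L (q * N1)) :
    IsIntegral (Algebra.adjoin L ({(⟨baseFn L H, hm⟩ : FF L (q * N1))⁻¹} : Set (FF L (q * N1))))
      (w (⟨baseFn L H, hm⟩ : FF L (q * N1))⁻¹) := by
  apply isIntegral_of_forall_valuationSubring (K := L)
  intro V hV ht
  obtain ⟨V', hK, hV'⟩ := exists_extension (q * N1) V hV
  have hm' : baseFn Qb H ∈ FF Qb (q * N1) := by
    have := (mapFF (algebraMap L Qb) (q * N1) ⟨baseFn L H, hm⟩).2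
    rwa [coe_mapFF, Descent_coeffMap_baseFn] at this
  have hmap := Descent_mapFF_baseFn (L := L) (q * N1) H hm hm'
  rw [hV', map_inv₀, map_inv₀, mapFF_comm Descent_iota (algebraMap L Qb) hq hqN hw, hmap]
  rw [hV', map_inv₀, hmap] at ht
  exact claimZ hH hq hqN hrN hm' V' hK ht

end Fermat.Agent.GS.Inst
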