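import Fermat.Agent.GS.Inst.Wint.Haupt
import Fermat.Agent.GR.E.BR10

/-!
# GS-INST / Wint, file Deg: `[FF Q̄ (r q) : Q̄(t)] = q + 1` for a generator `t` of `FF Q̄ r`

`GR.E.relfinrank_FF_mul_prime r q : (FF Qb r).relfinrank (FF Qb (r * q)) = q + 1`, and
`FF Qb r = Qb⟮t⟯` (`IsGen.mem`, `IsGen.gen`).  For the passage from `relfinrank` (intermediate fields of
`Qb((t))`) to `finrank Qb⟮x⟯ (FF Qb M)` (`x : FF Qb M`) see the proof of `GR.E.BR10_relfinrank_j`
(`relfinrank_top_right`, `relfinrank_map_map`, `adjoin_map`, `fieldRange_val`).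
-/

set_option autoImplicit false
set_option synthInstance.maxHeartbeats 400000

noncomputable section

namespace Fermat.Agent.GS.Inst

open Fermat.Agent.GR Fermat.Agent.GR.E ModularCurve IntermediateField

theorem finrank_adjoin_eq_relfinrank {K : Type*} [Field K] (M : ℕ) (x : FF K M) :
    Module.finrank K⟮x⟯ (FF K M) = (K⟮(x : LaurentSeries K)⟯).relfinrank (FF K M) := by
  rw [← relfinrank_top_right, ← relfinrank_map_map _ _ (FF K M).val]
  congr 1
  · rw [adjoin_map, Set.image_singleton]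
    rfl
  · rw [← AlgHom.fieldRange_eq_map, fieldRange_val]

theorem IsGen.finrank {r : ℕ} [NeZero r] {H : LaurentSeries ℤ} (hH : IsGen r H) {q : ℕ}
    (hq : q.Prime) (hqr : ¬ q ∣ r) (hm : baseFn Qb H ∈ FF Qb (r * q)) :
    Module.finrank Qb⟮(⟨baseFn Qb H, hm⟩ : FF Qb (r * q))⟯ (FF Qb (r * q)) = q + 1 := by
  rw [finrank_adjoin_eq_relfinrank]
  have h1 : Qb⟮baseFn Qb H⟯ = FF Qb r :=
    le_antisymm (adjoin_simple_le_iff.mpr (hH.mem Qb)) (hH.gen Qb)
  have h2 : Qb⟮(((⟨baseFn Qb H, hm⟩ : FF Qb (r * q)) : FF Qb (r * q)) : LaurentSeries Qb)⟯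
      = FF Qb r := h1
  rw [h2]
  exact relfinrank_FF_mul_prime r q hq hqr

end Fermat.Agent.GS.Inst
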