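import Fermat.Agent.GS.Inst.Setup
import Fermat.Agent.GR.D.Top.CaseH2
import Fermat.Agent.GR.D.Top.CaseH3

/-!
# GS-INST / Wint, file Haupt: what we use of the base functions `j`, `h₂`, `h₃`

Sources: `Fermat/Agent/Lib/Hauptmodul/{Main,Member}.lean` (`jq_mul_h2`, `jq2_mul_h2`, `jq_mul_h3`,
`jq3_mul_h3`, `h2_coeff_neg_one`, `h2_coeff_of_lt`, `jqModC_eq_h2R`, …), `GR/D/HauptBridge.lean`,
`GR/D/Top/CaseH2.lean`, `CaseH3.lean`.
-/

set_option autoImplicit false
set_option synthInstance.maxHeartbeats 400000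

noncomputable section

namespace Fermat.Agent.GS.Inst

open Fermat.Agent.GR Fermat.Agent.GR.E ModularCurve IntermediateField Polynomial

/-- `H` is (the `q`-expansion of) a generator of the function field of `X₀(r)` with a simple pole
at `∞`. -/
structure IsGen (r : ℕ) (H : LaurentSeries ℤ) : Prop where
  mem : ∀ (K : Type) [Field K] [CharZero K], baseFn K H ∈ FF K r
  gen : ∀ (K : Type) [Field K] [CharZero K], FF K r ≤ K⟮baseFn K H⟯
  coeff_neg_one : H.coeff (-1) = 1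
  coeff_of_lt : ∀ k : ℤ, k < -1 → H.coeff k = 0

/-- moreover `j H^a = G(H)` with `G(0) ≠ 0`: the zeros of `H` are cusps. -/
structure IsHaupt (r : ℕ) (H : LaurentSeries ℤ) : Prop extends IsGen r H where
  rel : ∃ (a : ℕ) (G : ℤ[X]), 0 < a ∧ G.eval 0 ≠ 0 ∧ jqModC ℤ * H ^ a = aeval H G

theorem isGen_j : IsGen 1 (jqModC ℤ) := by
  refine ⟨fun K _ _ => ?_, fun K _ _ => ?_, coeff_jqModC_neg_one ℤ, fun k hk => coeff_jqModC_of_lt ℤ hk⟩
  · have h : baseFn K (jqModC ℤ) = jqModC K := coeffMap_jqModC _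
    rw [h]
    exact jqModC_mem_full K 1
  · have h : baseFn K (jqModC ℤ) = jqModC K := coeffMap_jqModC _
    rw [h]
    change modularFunctionFieldFullC K 1 ≤ _
    rw [modularFunctionFieldFullC, adjoin_le_iff]
    rintro x ⟨d, hne, hd, rfl⟩
    have hd1 : d = 1 := Nat.dvd_one.mp hd
    subst hd1
    rw [qExpand_one_apply]
    exact mem_adjoin_simple_self K _

theorem isHaupt_h2 : IsHaupt 2 Fermat.Agent.Lib.Hauptmodul.h2 := by
  refine ⟨⟨fun K _ _ => ?_, fun K _ _ => ?_, Fermat.Agent.Lib.Hauptmodul.h2_coeff_neg_one,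
    fun k hk => Fermat.Agent.Lib.Hauptmodul.h2_coeff_of_lt hk⟩, ?_⟩
  · exact Fermat.Agent.Lib.Hauptmodul.h2R_mem_full K dvd_rfl
  · exact (Fermat.Agent.Lib.Hauptmodul.full_two_eq_adjoin K).le
  · refine ⟨2, (X + C 256) ^ 3, by norm_num, by simp, ?_⟩
    rw [Fermat.Agent.Lib.Hauptmodul.jq_mul_h2, map_pow, map_add, aeval_X, aeval_C]
    congr 2
    exact (map_ofNat (algebraMap ℤ (LaurentSeries ℤ)) 256).symm

theorem isHaupt_h3 : IsHaupt 3 Fermat.Agent.Lib.Hauptmodul.h3 := by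
  refine ⟨⟨fun K _ _ => ?_, fun K _ _ => ?_, Fermat.Agent.Lib.Hauptmodul.h3_coeff_neg_one,
    fun k hk => Fermat.Agent.Lib.Hauptmodul.h3_coeff_of_lt hk⟩, ?_⟩
  · exact Fermat.Agent.Lib.Hauptmodul.h3R_mem_full K dvd_rfl
  · exact (Fermat.Agent.Lib.Hauptmodul.full_three_eq_adjoin K).le
  · refine ⟨3, (X + C 27) * (X + C 243) ^ 3, by norm_num, by simp, ?_⟩
    rw [Fermat.Agent.Lib.Hauptmodul.jq_mul_h3, map_mul, map_pow, map_add, map_add, aeval_X,
      aeval_C, aeval_C, map_ofNat (algebraMap ℤ (LaurentSeries ℤ)) 27,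
      map_ofNat (algebraMap ℤ (LaurentSeries ℤ)) 243]

theorem IsGen.order_baseFn {r : ℕ} {H : LaurentSeries ℤ} (hH : IsGen r H) (K : Type*) [Field K] :
    (baseFn K H).order = -1 := by
  have h1 : (baseFn K H).coeff (-1) = 1 := by
    unfold baseFn
    rw [coeffMap_coeff, hH.coeff_neg_one]
    simp
  have hne : (baseFn K H).coeff (-1) ≠ 0 := by rw [h1]; exact one_ne_zero
  have hle : (baseFn K H).order ≤ -1 := HahnSeries.order_le_of_coeff_ne_zero hne
  have h0 : baseFn K H ≠ 0 := by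
    intro h
    rw [h] at hne
    exact hne rfl
  have hge : ¬ (baseFn K H).order < -1 := by
    intro hlt
    apply h0
    rw [← HahnSeries.coeff_order_eq_zero]
    unfold baseFn at hlt ⊢
    rw [coeffMap_coeff, hH.coeff_of_lt _ hlt]
    simp
  omega

theorem IsGen.transcendental {r : ℕ} {H : LaurentSeries ℤ} (hH : IsGen r H) (K : Type*) [Field K] :
    Transcendental K (baseFn K H) := by
  apply Fermat.Agent.Lib.Hauptmodul.transcendental_of_coeff_neg_one K
  unfold baseFn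
  rw [coeffMap_coeff, hH.coeff_neg_one]
  simp

theorem IsHaupt.rel_baseFn {r : ℕ} {H : LaurentSeries ℤ} (hH : IsHaupt r H) :
    ∃ (a : ℕ) (G : ℤ[X]), 0 < a ∧ G.eval 0 ≠ 0 ∧ ∀ (K : Type*) [Field K],
      jqModC K * baseFn K H ^ a = aeval (baseFn K H) G := by
  obtain ⟨a, G, ha, hG, hrel⟩ := hH.rel
  refine ⟨a, G, ha, hG, fun K _ => ?_⟩
  have h := congrArg (coeffMap (Int.castRingHom K)) hrel
  rw [map_mul, map_pow, coeffMap_jqModC] at h
  unfold baseFn
  rw [h]
  rw [aeval_def, aeval_def, Polynomial.hom_eval₂]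
  congr 1
  exact RingHom.ext_int _ _

end Fermat.Agent.GS.Inst
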