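import Fermat.Agent.GS.Inst.Wint.Swap

/-!
# GS-INST / Wint, file Logic: zeros of `t` are zeros of `w t` (over `Q̄`)

`V ⊇ Q̄` a valuation subring of `FF Qb N`, `t⁻¹ ∈ V`.  Suppose `t'⁻¹ ∉ V` (`t' = W t`): then `t' ∈ V` is a
nonunit.  Apply `W` to `j t^a = G(t)`: `j' t'^a = G(t')`, `j' = W j`; `G(t') ∈ G(0) + t' V` is a unit of `V`
(`G(0) ∈ ℤ ∖ 0`), so `j' ∉ V`.  By `claimB` for `(1, j)`: `j ∉ V`.  So `t` is not a unit of `V`
(`j = G(t)/t^a`), so `t ∉ V`.  By `claimA` for `t`: `t' ∉ V`.  Contradiction.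
-/

set_option autoImplicit false
set_option synthInstance.maxHeartbeats 400000

noncomputable section

namespace Fermat.Agent.GS.Inst

open Fermat.Agent.GR Fermat.Agent.GR.E ModularCurve IntermediateField

/-- abstract form of the argument. -/
theorem claimZ_abstract {K F : Type*} [Field K] [CharZero K] [Field F] [Algebra K F]
    (V : ValuationSubring F) (hV : ∀ a : K, algebraMap K F a ∈ V) (t t' j j' : F)
    (a : ℕ) (G : Polynomial ℤ) (ha : 0 < a) (hG : G.eval 0 ≠ 0)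
    (h1 : j * t ^ a = G.eval₂ (Int.castRingHom F) t)
    (h2 : j' * t' ^ a = G.eval₂ (Int.castRingHom F) t')
    (hA : t' ∈ V → t ∈ V) (hB : j ∈ V → j' ∈ V) (h : t⁻¹ ∈ V) : t'⁻¹ ∈ V := by
  by_contra hcon
  have hF : CharZero F := charZero_of_injective_algebraMap (algebraMap K F).injective
  have ht' : t' ∈ V := (V.mem_or_inv_mem t').resolve_right hcon
  have ht : t ∈ V := hA ht'
  have hint : ∀ n : ℤ, ((n : ℤ) : F) ∈ V := by
    intro n
    have : ((n : ℤ) : F) = algebraMap K F (n : K) := by simp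
    rw [this]
    exact hV _
  have haev : ∀ x ∈ V, ∀ P : Polynomial ℤ, P.eval₂ (Int.castRingHom F) x ∈ V := by
    intro x hx P
    rw [Polynomial.eval₂_eq_sum_range]
    refine sum_mem fun i _ => ?_
    exact mul_mem (hint _) (pow_mem hx i)
  have hc0 : ((G.eval 0 : ℤ) : F) ≠ 0 := by exact_mod_cast hG
  -- `j ∈ V`
  have ht0 : t ≠ 0 := by
    rintro rfl
    rw [zero_pow ha.ne', mul_zero, Polynomial.eval₂_at_zero,
      Polynomial.coeff_zero_eq_eval_zero] at h1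
    exact hc0 h1.symm
  have hj : j ∈ V := by
    have : j = G.eval₂ (Int.castRingHom F) t * (t⁻¹) ^ a := by
      rw [← h1, inv_pow, mul_assoc, mul_inv_cancel₀ (pow_ne_zero a ht0), mul_one]
    rw [this]
    exact mul_mem (haev t ht G) (pow_mem h a)
  have hj' : j' ∈ V := hB hj
  -- `G(t') = G(0) + t' * c`
  obtain ⟨Q, hQ⟩ : ∃ Q : Polynomial ℤ, G = Polynomial.C (G.eval 0) + Polynomial.X * Q := by
    refine ⟨G.divX, ?_⟩
    rw [← Polynomial.coeff_zero_eq_eval_zero, add_comm, mul_comm]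
    exact (Polynomial.divX_mul_X_add G).symm
  have h3 : G.eval₂ (Int.castRingHom F) t' =
      ((G.eval 0 : ℤ) : F) + t' * Q.eval₂ (Int.castRingHom F) t' := by
    conv_lhs => rw [hQ]
    rw [Polynomial.eval₂_add, Polynomial.eval₂_mul, Polynomial.eval₂_C, Polynomial.eval₂_X]
    rfl
  obtain ⟨b, rfl⟩ : ∃ b, a = b + 1 := ⟨a - 1, by omega⟩
  have h4 : ((G.eval 0 : ℤ) : F) = t' * (j' * t' ^ b - Q.eval₂ (Int.castRingHom F) t') := by
    have : ((G.eval 0 : ℤ) : F) = j' * t' ^ (b + 1) - t' * Q.eval₂ (Int.castRingHom F) t' := by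
      rw [h2, h3]; ring
    rw [this]; ring
  apply hcon
  have hcinv : (((G.eval 0 : ℤ) : F))⁻¹ ∈ V := by
    have : (((G.eval 0 : ℤ) : F))⁻¹ = algebraMap K F ((G.eval 0 : ℤ) : K)⁻¹ := by
      rw [map_inv₀]; simp
    rw [this]
    exact hV _
  have ht'0 : t' ≠ 0 := by
    rintro rfl
    rw [zero_mul] at h4
    exact hc0 h4
  have : t'⁻¹ = (j' * t' ^ b - Q.eval₂ (Int.castRingHom F) t') * (((G.eval 0 : ℤ) : F))⁻¹ := by
    rw [eq_mul_inv_iff_mul_eq₀ hc0, h4, ← mul_assoc, inv_mul_cancel₀ ht'0, one_mul]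
  rw [this]
  exact mul_mem (sub_mem (mul_mem hj' (pow_mem ht' b)) (haev t' ht' Q)) hcinv

variable {q N1 : ℕ} [NeZero q] [NeZero N1] [NeZero (q * N1)]

theorem claimZ {r : ℕ} [NeZero r] {H : LaurentSeries ℤ} (hH : IsHaupt r H) (hq : q.Prime)
    (hqN : ¬ q ∣ N1) (hrN : r ∣ N1) (hm : baseFn Qb H ∈ FF Qb (q * N1))
    (V : ValuationSubring (FF Qb (q * N1))) (hV : ∀ a : Qb, algebraMap Qb (FF Qb (q * N1)) a ∈ V)
    (h : (⟨baseFn Qb H, hm⟩ : FF Qb (q * N1))⁻¹ ∈ V) :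
    (GT.EMB.wQ Qb q N1 ⟨baseFn Qb H, hm⟩)⁻¹ ∈ V := by
  obtain ⟨a, G, ha, hG, hrel⟩ := hH.rel_baseFn
  have hmj : baseFn Qb (jqModC ℤ) ∈ FF Qb (q * N1) :=
    GT.EMB.FF_mono Qb (one_dvd _) (isGen_j.mem Qb)
  set t : FF Qb (q * N1) := ⟨baseFn Qb H, hm⟩ with ht
  set j : FF Qb (q * N1) := ⟨baseFn Qb (jqModC ℤ), hmj⟩ with hj
  have h1 : j * t ^ a = G.eval₂ (Int.castRingHom (FF Qb (q * N1))) t := by
    apply (FF Qb (q * N1)).val.toRingHom.injective
    rw [Polynomial.hom_eval₂, map_mul, map_pow,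
      RingHom.ext_int ((FF Qb (q * N1)).val.toRingHom.comp (Int.castRingHom (FF Qb (q * N1))))
        (Int.castRingHom (LaurentSeries Qb))]
    have e := hrel Qb
    have key : ∀ f : ℤ →+* LaurentSeries Qb, Polynomial.eval₂ f (baseFn Qb H) G =
        Polynomial.eval₂ (Int.castRingHom (LaurentSeries Qb)) (baseFn Qb H) G := fun f => by
      rw [RingHom.ext_int f (Int.castRingHom (LaurentSeries Qb))]
    rw [Polynomial.aeval_def, key] at e
    rw [← coeffMap_jqModC (Int.castRingHom Qb)] at e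
    exact e
  have h2 : GT.EMB.wQ Qb q N1 j * (GT.EMB.wQ Qb q N1 t) ^ a =
      G.eval₂ (Int.castRingHom (FF Qb (q * N1))) (GT.EMB.wQ Qb q N1 t) := by
    have := congrArg (GT.EMB.wQ Qb q N1 : FF Qb (q * N1) →ₐ[Qb] FF Qb (q * N1)).toRingHom h1
    rw [map_mul, map_pow, Polynomial.hom_eval₂,
      RingHom.ext_int ((GT.EMB.wQ Qb q N1 : FF Qb (q * N1) →ₐ[Qb] FF Qb (q * N1)).toRingHom.comp
        (Int.castRingHom (FF Qb (q * N1)))) (Int.castRingHom (FF Qb (q * N1)))] at this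
    exact this
  exact claimZ_abstract (K := Qb) V hV t _ j _ a G ha hG h1 h2
    (claimA hH.toIsGen hq hqN hrN hm V hV)
    (claimB isGen_j hq hqN (one_dvd _) hmj V hV) h

end Fermat.Agent.GS.Inst
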