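import Fermat.Agent.S24.InducedPlace
import Fermat.Agent.S24.Zeros
import Fermat.Agent.S24.OrderLemmas

/-!
# GS-INST / Wint, file Place: places of a function field from embeddings into `ℂ((u))`, and the
criterion of integrality in terms of places

`exists_place_of_emb`: copy the proof of `S24.UnifData.exists_place` (`S24/InducedPlace.lean`):
`orderSubring φ` contains `K` and `x` or `x⁻¹`, hence the integral closure `B` of `K[x^{±1}]`, a
Dedekind domain with fraction field `E`; `induced_exists_heightOne`.
`isIntegral_of_forall_place`: `B` = integral closure of `K[y]` is Dedekind with fraction field `E`;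
`IsDedekindDomain.HeightOneSpectrum.mem_integers_of_valuation_le_one`, `Place.ofHeightOneSpectrum`,
`S24.Zeros.algebraMap_mem_ofHeightOneSpectrum`, `S24.Zeros.adicValuation_ofHeightOneSpectrum`.
-/

set_option autoImplicit false

namespace Fermat.Agent.GS.Inst

open AlgebraicCurve IntermediateField Fermat.Agent.S24

variable {K E : Type} [Field K] [Field E] [Algebra K E] [IsAlgClosed K] [CharZero K]

theorem Place_exists_of_pos (φ : E →+* LaurentSeries ℂ)
    (hK : ∀ a : K, algebraMap K E a ∈ orderSubring φ)
    (x : E) (hx : Transcendental K x) [FiniteDimensional K⟮x⟯ E] (hord : 0 < (φ x).order) :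
    ∃ v : Place K E, ∀ f : E, f ∈ v.toValuationSubring ↔ 0 ≤ (φ f).order := by
  have := induced_isDedekindDomain x hx
  have := induced_isFractionRing (K := K) x
  have hxO : x ∈ orderSubring φ := (mem_orderSubring φ x).2 hord.le
  have hB : ∀ (b : integralClosure (Algebra.adjoin K {x}) E),
      algebraMap (integralClosure (Algebra.adjoin K {x}) E) E b ∈ orderSubring φ :=
    fun b => induced_integralClosure_le x _ hK hxO b b.2
  have hne : orderSubring φ ≠ ⊤ := by
    intro h
    have h1 : x⁻¹ ∈ orderSubring φ := h ▸ ValuationSubring.mem_top _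
    rw [mem_orderSubring, induced_order_inv] at h1
    omega
  obtain ⟨w, hw, -⟩ := induced_exists_heightOne (orderSubring φ) hB hne
  refine ⟨Place.ofHeightOneSpectrum (K := K) w, fun f => ?_⟩
  rw [Place.ofHeightOneSpectrum_toValuationSubring, hw, mem_orderSubring]

omit [IsAlgClosed K] [CharZero K] in
theorem Place_adjoin_inv (x : E) : K⟮x⁻¹⟯ = K⟮x⟯ := by
  apply le_antisymm
  · rw [adjoin_simple_le_iff]
    exact inv_mem (mem_adjoin_simple_self K x)
  · rw [adjoin_simple_le_iff]
    have := inv_mem (mem_adjoin_simple_self K x⁻¹)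
    rwa [inv_inv] at this

theorem exists_place_of_emb (φ : E →+* LaurentSeries ℂ) (ι : K →+* ℂ)
    (hc : ∀ a, φ (algebraMap K E a) = HahnSeries.C (ι a))
    (x : E) (hx : Transcendental K x) [FiniteDimensional K⟮x⟯ E] (hord : (φ x).order ≠ 0) :
    ∃ v : Place K E, ∀ f : E, f ∈ v.toValuationSubring ↔ 0 ≤ (φ f).order := by
  have hK : ∀ a : K, algebraMap K E a ∈ orderSubring φ := by
    intro a
    rw [mem_orderSubring, hc, HahnSeries.order_C]
  rcases lt_or_gt_of_ne hord with h | h
  · have hx' : Transcendental K x⁻¹ := by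
      intro halg
      apply hx
      have := halg.inv
      rwa [inv_inv] at this
    have hfd : FiniteDimensional K⟮x⁻¹⟯ E := by
      rw [Place_adjoin_inv]
      infer_instance
    refine Place_exists_of_pos φ hK x⁻¹ hx' ?_
    rw [induced_order_inv]
    omega
  · exact Place_exists_of_pos φ hK x hx h

/-- if moreover some element has order `± 1` then `ord_v = order ∘ φ`. -/
theorem ord_eq_order_of_emb (φ : E →+* LaurentSeries ℂ) (v : Place K E)
    (hv : ∀ f : E, f ∈ v.toValuationSubring ↔ 0 ≤ (φ f).order) (x : E) (hx : (φ x).order = -1) :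
    ∀ f : E, v.ord f = (φ f).order := by
  obtain ⟨k, hk, hkf⟩ := exists_order_eq_mul_ord v φ hv
  have h1 := hkf x
  rw [hx] at h1
  have hk1 : (k : ℤ) = 1 := by
    have hk' : (1 : ℤ) ≤ k := by exact_mod_cast hk
    have hm : v.ord x < 0 := by
      by_contra hcon
      push Not at hcon
      have : 0 ≤ (k : ℤ) * v.ord x := mul_nonneg (by omega) hcon
      omega
    nlinarith
  intro f
  rw [hkf f, hk1, one_mul]

theorem isIntegral_of_forall_place (x y : E) (hy : Transcendental K y) [FiniteDimensional K⟮y⟯ E]
    (h : ∀ v : Place K E, y ∈ v.toValuationSubring → x ∈ v.toValuationSubring) :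
    IsIntegral (Algebra.adjoin K ({y} : Set E)) x := by
  have := induced_isDedekindDomain y hy
  have := induced_isFractionRing (K := K) y
  have hyB : y ∈ integralClosure (Algebra.adjoin K ({y} : Set E)) E :=
    isIntegral_algebraMap (x := (⟨y, Algebra.self_mem_adjoin_singleton K y⟩ :
      Algebra.adjoin K ({y} : Set E)))
  have hval : ∀ w : IsDedekindDomain.HeightOneSpectrum
      (integralClosure (Algebra.adjoin K ({y} : Set E)) E), w.valuation E x ≤ 1 := by
    intro w
    have h1 : y ∈ (Place.ofHeightOneSpectrum (K := K) w).toValuationSubring :=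
      Zeros.algebraMap_mem_ofHeightOneSpectrum w ⟨y, hyB⟩
    have h2 := h _ h1
    rw [Place.ofHeightOneSpectrum_toValuationSubring, Valuation.mem_valuationSubring_iff] at h2
    exact h2
  obtain ⟨b, hb⟩ := IsDedekindDomain.HeightOneSpectrum.mem_integers_of_valuation_le_one E x hval
  rw [← hb]
  exact b.2

end Fermat.Agent.GS.Inst
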