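import Fermat.Agent.GS.Inst.Wint.Place

/-!
# GS-INST / Wint, file Pole: the pole count

`x` has degree `≤ n + 1`; `v₁ = order ∘ φ₁`, `v₂ = order ∘ φ₂` are two different poles of `x`, of
orders `1` and `n`.  By `S24.Zeros.sum_ord_poles` (`∑_{poles} ord x = - [E : K(x)]`,
`S24.Zeros.finite_poles`) `x` has no other pole.  Both are poles of `y`.  So `y ∈ v → x ∈ v` for every
place `v`, and `x` is integral over `K[y]` (`isIntegral_of_forall_place`; `y` is transcendental since
it has a pole, and `E` is finite over `K(y)`: `S24.Zeros.finiteDimensional_adjoin_of_transcendental`).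
-/

set_option autoImplicit false

namespace Fermat.Agent.GS.Inst

open AlgebraicCurve IntermediateField Fermat.Agent.S24

variable {K E : Type} [Field K] [Field E] [Algebra K E] [IsAlgClosed K] [CharZero K]

theorem isIntegral_of_two_embeddings (x y : E) (hx : Transcendental K x)
    [FiniteDimensional K⟮x⟯ E] (φ₁ φ₂ : E →+* LaurentSeries ℂ) (ι : K →+* ℂ)
    (hc₁ : ∀ a, φ₁ (algebraMap K E a) = HahnSeries.C (ι a))
    (hc₂ : ∀ a, φ₂ (algebraMap K E a) = HahnSeries.C (ι a))
    (n : ℕ) (hn : 1 < n) (hdeg : Module.finrank K⟮x⟯ E ≤ n + 1)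
    (h1x : (φ₁ x).order = -1) (h1y : (φ₁ y).order = -(n : ℤ))
    (h2x : (φ₂ x).order = -(n : ℤ)) (h2y : (φ₂ y).order = -1) :
    IsIntegral (Algebra.adjoin K ({y} : Set E)) x := by
  classical
  have hfin : FiniteDimensional K⟮x⟯ E := inferInstance
  obtain ⟨v₁, hv₁⟩ := exists_place_of_emb φ₁ ι hc₁ x hx (by rw [h1x]; decide)
  obtain ⟨v₂, hv₂⟩ := exists_place_of_emb φ₂ ι hc₂ x hx (by rw [h2x]; omega)
  have ho₁ := ord_eq_order_of_emb φ₁ v₁ hv₁ x h1x
  have ho₂ := ord_eq_order_of_emb φ₂ v₂ hv₂ y h2y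
  have hne : v₁ ≠ v₂ := by
    intro h
    have e1 := ho₁ x
    have e2 := ho₂ x
    rw [h, e2, h2x, h1x] at e1
    omega
  -- `y` is transcendental
  have hy : Transcendental K y := by
    intro halg
    have hint : IsIntegral K y := halg.isIntegral
    have hd := IsAlgClosed.degree_eq_one_of_irreducible K (minpoly.irreducible hint)
    obtain ⟨a, ha⟩ := minpoly.mem_range_of_degree_eq_one K y hd
    have e1 := ho₁ y
    rw [← ha, Zeros.ord_algebraMap, ha, h1y] at e1
    omega
  have hfy : FiniteDimensional K⟮y⟯ E :=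
    Zeros.finiteDimensional_adjoin_of_transcendental hfin hy
  -- the poles of `x`
  have hP := Zeros.finite_poles hx hfin
  have hsum := Zeros.sum_ord_poles hx hfin
  have key : ∀ v : Place K E, v.ord x < 0 → v = v₁ ∨ v = v₂ := by
    intro v hv
    by_contra hcon
    rw [not_or] at hcon
    obtain ⟨hc1, hc2⟩ := hcon
    rw [finsum_mem_eq_finite_toFinset_sum _ hP] at hsum
    have hm : ∀ w : Place K E, w ∈ hP.toFinset ↔ w.ord x < 0 := by
      intro w
      rw [Set.Finite.mem_toFinset]
      rfl
    have hsub : ({v, v₁, v₂} : Finset (Place K E)) ⊆ hP.toFinset := by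
      intro w hw
      rw [Finset.mem_insert, Finset.mem_insert, Finset.mem_singleton] at hw
      rw [hm]
      rcases hw with rfl | rfl | rfl
      · exact hv
      · rw [ho₁, h1x]; decide
      · rw [ho₂, h2x]; omega
    have hle : ∑ w ∈ ({v, v₁, v₂} : Finset (Place K E)), (-(w.ord x)) ≤
        ∑ w ∈ hP.toFinset, (-(w.ord x)) := by
      apply Finset.sum_le_sum_of_subset_of_nonneg hsub
      intro w hw _
      have := (hm w).1 hw
      omega
    rw [Finset.sum_neg_distrib (s := hP.toFinset), hsum, neg_neg,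
      Finset.sum_insert (by simp [hc1, hc2]), Finset.sum_insert (by simp [hne]),
      Finset.sum_singleton, ho₁, ho₂, h1x, h2x] at hle
    have : (Module.finrank K⟮x⟯ E : ℤ) ≤ n + 1 := by exact_mod_cast hdeg
    omega
  refine isIntegral_of_forall_place x y hy fun v hyv => ?_
  by_contra hxv
  have hlt : v.ord x < 0 := by
    by_contra h
    exact hxv (Zeros.mem_of_ord_nonneg v (not_lt.1 h))
  rcases key v hlt with rfl | rfl
  · have := Zeros.ord_nonneg_of_mem _ hyv
    rw [ho₁, h1y] at this
    omega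
  · have := Zeros.ord_nonneg_of_mem _ hyv
    rw [ho₂, h2y] at this
    omega

end Fermat.Agent.GS.Inst
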