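import Mathlib

/-!
# GS-INST / Wint, file Val: the valuative criterion of integrality (Mathlib only)

`iInf_valuationSubring_superset` / `Subring.exists_le_valuationSubring_of_isIntegrallyClosedIn`
(`Mathlib/RingTheory/Valuation/LocalSubring.lean`).
-/

set_option autoImplicit false

namespace Fermat.Agent.GS.Inst

theorem isIntegral_of_forall_valuationSubring {K F : Type*} [Field K] [Field F] [Algebra K F]
    (x y : F)
    (h : ∀ V : ValuationSubring F, (∀ a : K, algebraMap K F a ∈ V) → x ∈ V → y ∈ V) :
    IsIntegral (Algebra.adjoin K ({x} : Set F)) y := by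
  set s : Set F := Set.range (algebraMap K F) ∪ {x} with hs
  have hy : y ∈ (⨅ V : {V : ValuationSubring F // s ⊆ V.toSubring}, V.1.toSubring) := by
    rw [Subring.mem_iInf]
    rintro ⟨V, hV⟩
    exact h V (fun a => hV (Or.inl ⟨a, rfl⟩)) (hV (Or.inr rfl))
  rw [iInf_valuationSubring_superset] at hy
  have hy' : IsIntegral (Subring.closure s) y := hy
  have hle : Subring.closure s ≤ (Algebra.adjoin K ({x} : Set F)).toSubring := by
    rw [Subring.closure_le]
    rintro z (⟨a, rfl⟩ | rfl)
    · exact (Algebra.adjoin K ({x} : Set F)).algebraMap_mem a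
    · exact Algebra.subset_adjoin rfl
  obtain ⟨p, hp, hpy⟩ := hy'
  let i : Subring.closure s →+* Algebra.adjoin K ({x} : Set F) := Subring.inclusion hle
  refine ⟨p.map i, hp.map i, ?_⟩
  rw [Polynomial.eval₂_map]
  exact hpy

/-- the easy direction -/
theorem mem_valuationSubring_of_isIntegral {K F : Type*} [Field K] [Field F] [Algebra K F]
    {x y : F} (h : IsIntegral (Algebra.adjoin K ({x} : Set F)) y) (V : ValuationSubring F)
    (hK : ∀ a : K, algebraMap K F a ∈ V) (hx : x ∈ V) : y ∈ V := by
  have hle : (Algebra.adjoin K ({x} : Set F)).toSubring ≤ V.toSubring := by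
    have key : ∀ z ∈ Algebra.adjoin K ({x} : Set F), z ∈ V := by
      intro z hz'
      induction hz' using Algebra.adjoin_induction with
      | mem z hz => rw [Set.mem_singleton_iff.1 hz]; exact hx
      | algebraMap a => exact hK a
      | add a b _ _ ha hb => exact V.add_mem _ _ ha hb
      | mul a b _ _ ha hb => exact V.mul_mem _ _ ha hb
    exact fun z hz => key z hz
  obtain ⟨p, hp, hpy⟩ := h
  let i : Algebra.adjoin K ({x} : Set F) →+* V := Subring.inclusion hle
  have hint : IsIntegral V y := by
    refine ⟨p.map i, hp.map i, ?_⟩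
    rw [Polynomial.eval₂_map]
    exact hpy
  obtain ⟨z, hz⟩ := (IsIntegrallyClosed.isIntegral_iff (R := V) (K := F)).1 hint
  rw [← hz]
  exact z.2

/-- integrality does not depend on the ambient field. -/
theorem isIntegral_adjoin_map {K E F : Type*} [Field K] [Field E] [Field F] [Algebra K E]
    [Algebra K F] (f : E →ₐ[K] F) {x y : E} (h : IsIntegral (Algebra.adjoin K ({x} : Set E)) y) :
    IsIntegral (Algebra.adjoin K ({f x} : Set F)) (f y) := by
  obtain ⟨p, hp, hpy⟩ := h
  have hmap : ∀ z : Algebra.adjoin K ({x} : Set E), f z ∈ Algebra.adjoin K ({f x} : Set F) := by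
    intro z
    have h1 : f z ∈ (Algebra.adjoin K ({x} : Set E)).map f := ⟨z, z.2, rfl⟩
    rwa [AlgHom.map_adjoin, Set.image_singleton] at h1
  let i : Algebra.adjoin K ({x} : Set E) →+* Algebra.adjoin K ({f x} : Set F) :=
    { toFun := fun z => ⟨f z, hmap z⟩
      map_one' := Subtype.ext (by simp)
      map_mul' := fun a b => Subtype.ext (by simp)
      map_zero' := Subtype.ext (by simp)
      map_add' := fun a b => Subtype.ext (by simp) }
  refine ⟨p.map i, hp.map i, ?_⟩
  rw [Polynomial.eval₂_map]
  have h2 : (algebraMap (Algebra.adjoin K ({f x} : Set F)) F).comp i =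
      (f : E →+* F).comp (algebraMap (Algebra.adjoin K ({x} : Set E)) E) := by
    ext z
    rfl
  rw [h2]
  have h3 := Polynomial.hom_eval₂ p (algebraMap (Algebra.adjoin K ({x} : Set E)) E) (f : E →+* F) y
  rw [hpy, map_zero] at h3
  exact h3.symm

end Fermat.Agent.GS.Inst
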