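import Fermat.Agent.GS.Inst.Wint.Deg
import Fermat.Agent.GS.Inst.Wint.Pole
import Fermat.Agent.GS.Inst.Wint.Val
import Fermat.Agent.GS.Inst.Wq

/-!
# GS-INST / Wint, file Swap (claim A): over `Q̄`, `t` is integral over `Q̄[w t]`

`N = q N1`, `r ∣ N1`, `W = GT.EMB.wQ Qb q N1`, `t = baseFn Qb H` a generator of `FF Qb r`,
`t' = W t = qExpand q t`.  Work in `E = FF Qb (r * q) ≤ FF Qb N`: `x = t`, `y = t'` (`GT.EMB.qExpand_mem_FF`).
`φ₁ = coeffMap iotaC ∘ val`, `φ₂ = coeffMap iotaC ∘ val ∘ W ∘ inclusion`: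
`φ₁ x = t`, `φ₁ y = t(u^q)`, `φ₂ x = t(u^q)`, `φ₂ y = t` (`IsWq.onF1`, `IsWq.invol`); orders `-1, -q, -q, -1`.
Apply `isIntegral_of_two_embeddings` with `n = q` and `IsGen.finrank`; transport to `FF Qb N`
(`isIntegral_adjoin_map`); `mem_valuationSubring_of_isIntegral`.
-/

set_option autoImplicit false
set_option synthInstance.maxHeartbeats 400000

noncomputable section

namespace Fermat.Agent.GS.Inst

open Fermat.Agent.GR Fermat.Agent.GR.E ModularCurve IntermediateField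

theorem Swap_order_qExpand {K : Type*} [Field K] (m : ℕ) [NeZero m] (f : LaurentSeries K) :
    (qExpand K m f).order = (m : ℤ) * f.order := by
  rcases eq_or_ne f 0 with rfl | hf
  · simp
  have hm : (0 : ℤ) < (m : ℤ) := by exact_mod_cast Nat.pos_of_ne_zero (NeZero.ne m)
  have hcoeff' : (qExpand K m f).coeff ((m : ℤ) * f.order) ≠ 0 := by
    rw [qExpand_coeff_mul]
    exact fun h => hf (HahnSeries.coeff_order_eq_zero.mp h)
  have hne : qExpand K m f ≠ 0 := HahnSeries.ne_zero_of_coeff_ne_zero hcoeff'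
  have hbelow : ∀ k : ℤ, k < (m : ℤ) * f.order → (qExpand K m f).coeff k = 0 := by
    intro k hk
    by_cases hdvd : (m : ℤ) ∣ k
    · obtain ⟨j, rfl⟩ := hdvd
      rw [qExpand_coeff_mul]
      exact HahnSeries.coeff_eq_zero_of_lt_order (lt_of_mul_lt_mul_left hk hm.le)
    · exact qExpand_coeff_of_not_dvd m f hdvd
  refine le_antisymm (HahnSeries.order_le_of_coeff_ne_zero hcoeff') ?_
  by_contra hlt
  rw [not_le] at hlt
  exact hne (HahnSeries.coeff_order_eq_zero.mp (hbelow _ hlt))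

variable {q N1 : ℕ} [NeZero q] [NeZero N1] [NeZero (q * N1)]

theorem isIntegral_swap {r : ℕ} [NeZero r] {H : LaurentSeries ℤ} (hH : IsGen r H) (hq : q.Prime)
    (hqN : ¬ q ∣ N1) (hrN : r ∣ N1) (hm : baseFn Qb H ∈ FF Qb (q * N1)) :
    IsIntegral (Algebra.adjoin Qb
      ({GT.EMB.wQ Qb q N1 ⟨baseFn Qb H, hm⟩} : Set (FF Qb (q * N1))))
      (⟨baseFn Qb H, hm⟩ : FF Qb (q * N1)) := by
  obtain ⟨ι⟩ := GS.nonempty_Qbar_hom
  have hcop : q.Coprime N1 := (Nat.Prime.coprime_iff_not_dvd hq).2 hqN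
  have hqr : ¬ q ∣ r := fun h => hqN (h.trans hrN)
  have hmr : baseFn Qb H ∈ FF Qb r := hH.mem Qb
  have hmE : baseFn Qb H ∈ FF Qb (r * q) := GT.EMB.FF_mono Qb (Dvd.intro q rfl) hmr
  have hmy : qExpand Qb q (baseFn Qb H) ∈ FF Qb (r * q) := by
    rw [mul_comm]
    exact GT.EMB.qExpand_mem_FF q hmr
  have hle : FF Qb (r * q) ≤ FF Qb (q * N1) :=
    GT.EMB.FF_mono Qb (by rw [mul_comm]; exact Nat.mul_dvd_mul_left q hrN)
  set x : FF Qb (r * q) := ⟨baseFn Qb H, hmE⟩ with hx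
  set y : FF Qb (r * q) := ⟨qExpand Qb q (baseFn Qb H), hmy⟩ with hy
  set f : FF Qb (r * q) →ₐ[Qb] FF Qb (q * N1) := IntermediateField.inclusion hle with hf
  set W := GT.EMB.wQ Qb q N1 with hW
  have hfx : f x = ⟨baseFn Qb H, hm⟩ := Subtype.ext rfl
  have hWx : ((W (f x) : FF Qb (q * N1)) : LaurentSeries Qb) = qExpand Qb q (baseFn Qb H) := by
    rw [hfx]
    exact GT.EMB.wQ_of_mem ι q N1 hcop _ (GT.EMB.FF_mono Qb hrN hmr)
  have hfy : f y = W (f x) := Subtype.ext hWx.symm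
  have hWy : W (f y) = f x := by
    rw [hfy]
    exact GT.EMB.wQ_wQ ι q N1 hcop _
  have hfr := hH.finrank hq hqr hmE
  have hfin : FiniteDimensional Qb⟮x⟯ (FF Qb (r * q)) :=
    Module.finite_of_finrank_pos (by rw [hfr]; omega)
  have hxt : Transcendental Qb x := by
    intro h
    exact hH.transcendental Qb (h.algHom (FF Qb (r * q)).val)
  let φ₁ : FF Qb (r * q) →+* LaurentSeries ℂ := (coeffMap ι).comp (FF Qb (r * q)).val.toRingHom
  let φ₂ : FF Qb (r * q) →+* LaurentSeries ℂ :=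
    ((coeffMap ι).comp (FF Qb (q * N1)).val.toRingHom).comp
      ((W : FF Qb (q * N1) →ₐ[Qb] FF Qb (q * N1)).toRingHom.comp f.toRingHom)
  have hC : ∀ a : Qb, coeffMap ι (algebraMap Qb (LaurentSeries Qb) a) = HahnSeries.C (ι a) := by
    intro a
    rw [C.coeffMap_algebraMap', algebraMap_laurentSeries_eq_single]
    rfl
  have ho : (baseFn Qb H).order = -1 := hH.order_baseFn Qb
  have key := isIntegral_of_two_embeddings x y hxt φ₁ φ₂ ι
    (fun a => hC a)
    (fun a => by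
      have h1 : φ₂ (algebraMap Qb (FF Qb (r * q)) a) =
          coeffMap ι ((W (f (algebraMap Qb (FF Qb (r * q)) a)) : FF Qb (q * N1)) :
            LaurentSeries Qb) := rfl
      rw [h1, AlgHom.commutes, AlgEquiv.commutes]
      exact hC a)
    q hq.one_lt hfr.le
    (by
      show (coeffMap ι (baseFn Qb H)).order = -1
      rw [C.coeffMap_order, ho])
    (by
      show (coeffMap ι (qExpand Qb q (baseFn Qb H))).order = -(q : ℤ)
      rw [C.coeffMap_order, Swap_order_qExpand, ho]; ring)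
    (by
      show (coeffMap ι ((W (f x) : FF Qb (q * N1)) : LaurentSeries Qb)).order = -(q : ℤ)
      rw [hWx, C.coeffMap_order, Swap_order_qExpand, ho]; ring)
    (by
      show (coeffMap ι ((W (f y) : FF Qb (q * N1)) : LaurentSeries Qb)).order = -1
      rw [hWy, hfx, C.coeffMap_order]
      exact ho)
  have key2 := isIntegral_adjoin_map f key
  rw [hfy, hfx] at key2
  exact key2

/-- claim A -/
theorem claimA {r : ℕ} [NeZero r] {H : LaurentSeries ℤ} (hH : IsGen r H) (hq : q.Prime)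
    (hqN : ¬ q ∣ N1) (hrN : r ∣ N1) (hm : baseFn Qb H ∈ FF Qb (q * N1))
    (V : ValuationSubring (FF Qb (q * N1))) (hV : ∀ a : Qb, algebraMap Qb (FF Qb (q * N1)) a ∈ V)
    (h : GT.EMB.wQ Qb q N1 ⟨baseFn Qb H, hm⟩ ∈ V) : (⟨baseFn Qb H, hm⟩ : FF Qb (q * N1)) ∈ V :=
  mem_valuationSubring_of_isIntegral (isIntegral_swap hH hq hqN hrN hm) V hV h

/-- claim B: apply claim A to `V.comap W`. -/
theorem claimB {r : ℕ} [NeZero r] {H : LaurentSeries ℤ} (hH : IsGen r H) (hq : q.Prime)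
    (hqN : ¬ q ∣ N1) (hrN : r ∣ N1) (hm : baseFn Qb H ∈ FF Qb (q * N1))
    (V : ValuationSubring (FF Qb (q * N1))) (hV : ∀ a : Qb, algebraMap Qb (FF Qb (q * N1)) a ∈ V)
    (h : (⟨baseFn Qb H, hm⟩ : FF Qb (q * N1)) ∈ V) : GT.EMB.wQ Qb q N1 ⟨baseFn Qb H, hm⟩ ∈ V := by
  obtain ⟨ι⟩ := GS.nonempty_Qbar_hom
  have hcop : q.Coprime N1 := (Nat.Prime.coprime_iff_not_dvd hq).2 hqN
  have := claimA hH hq hqN hrN hm
    (V.comap ((GT.EMB.wQ Qb q N1 : FF Qb (q * N1) →ₐ[Qb] FF Qb (q * N1)).toRingHom))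
    (fun a => by
      rw [ValuationSubring.mem_comap]
      have : ((GT.EMB.wQ Qb q N1 : FF Qb (q * N1) →ₐ[Qb] FF Qb (q * N1)).toRingHom)
          (algebraMap Qb (FF Qb (q * N1)) a) = algebraMap Qb (FF Qb (q * N1)) a :=
        (GT.EMB.wQ Qb q N1).commutes a
      rw [this]
      exact hV a)
    (by
      rw [ValuationSubring.mem_comap]
      have : ((GT.EMB.wQ Qb q N1 : FF Qb (q * N1) →ₐ[Qb] FF Qb (q * N1)).toRingHom)
          (GT.EMB.wQ Qb q N1 ⟨baseFn Qb H, hm⟩) = ⟨baseFn Qb H, hm⟩ :=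
        GT.EMB.wQ_wQ ι q N1 hcop _
      rw [this]
      exact h)
  exact this

end Fermat.Agent.GS.Inst
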